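/-
S19 Part C (integrality of the Weil pairing from good reduction of the curve).  Definitions.
Architect: helper32.  Maths: report #1108 (NEW 2, NEW 3, INT), inertia version.

`F` is a function field over `ℚ̄` with a semilinear Galois action `gal`, `x ∈ F` a Galois-fixed
coordinate, `A` a valuation ring of `ℚ̄`.
* `BA gal A y`  : the `A`-span of the Galois-fixed elements of `F` which are integral over `A[y]`.
* `AUnit gal A x f P` : `f` is a unit at the reduction of the place `P` (in the chart `x` or `x⁻¹`).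
* `UnitMod B ϖ g a` : `a ∈ B` is invertible modulo `(ϖ, g) B`.
-/
import Fermat.Agent.S18.Defs
import Fermat.Agent.S19.Loc.Defs
import Fermat.Agent.S19.Weil.Defs

set_option autoImplicit false

noncomputable section

namespace Fermat.Agent.S19.Int

open AlgebraicCurve Fermat.Agent.S27

/-- `z` is a unit of `A`. -/
def IsAU (A : ValuationSubring Qb) (z : Qb) : Prop := z ∈ A ∧ z⁻¹ ∈ A ∧ z ≠ 0

section Geo

variable {F : Type} [Field F] [Algebra Qb F]

/-- The `A`-span of the Galois-fixed elements integral over `A[y]`. -/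
def BA (gal : Gal →* SemilinearAut Qb F) (A : ValuationSubring Qb) (y : F) : Set F :=
  {b | ∃ (m : ℕ) (c : Fin m → Qb) (β : Fin m → F), (∀ k, c k ∈ A) ∧
    (∀ k (σ : Gal), gal σ • β k = β k) ∧ (∀ k, β k ∈ S18.chart A.toSubring y) ∧
    b = ∑ k, algebraMap Qb F (c k) * β k}

/-- `P` reduces into the chart `y` and `f = a / b` with `a, b ∈ BA` units at `P`. -/
def AUnitAt (gal : Gal →* SemilinearAut Qb F) (A : ValuationSubring Qb) (y f : F)
    (P : Place Qb F) : Prop :=
  0 ≤ P.ord y ∧ ev P y ∈ A ∧ ∃ a b : F, a ∈ BA gal A y ∧ b ∈ BA gal A y ∧ f * b = a ∧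
    IsAU A (ev P a) ∧ IsAU A (ev P b)

/-- `f` is a unit at the reduction of `P`. -/
def AUnit (gal : Gal →* SemilinearAut Qb F) (A : ValuationSubring Qb) (x f : F)
    (P : Place Qb F) : Prop :=
  AUnitAt gal A x f P ∨ AUnitAt gal A x⁻¹ f P

end Geo

section Abs

variable {F : Type*} [Field F]

/-- `a ∈ B` is invertible modulo `(ϖ, g) B`. -/
def UnitMod (B : Subring F) (ϖ g a : F) : Prop :=
  a ∈ B ∧ ∃ a' ∈ B, ∃ r ∈ B, ∃ r' ∈ B, a * a' = 1 + ϖ * r + g * r'

end Abs

end Fermat.Agent.S19.Int
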