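/-
S19 Part C, block EV: evaluation of `BA` at places, `AUnit` gives `IsSI`.
(architect helper32; proofs helper293).
-/
import Fermat.Agent.S19.Int.Defs
import Fermat.Agent.S19.Loc.Calc
import Fermat.Agent.S19.Weil.EvDiv
import Fermat.Agent.S18.Chart.Const

set_option autoImplicit false

noncomputable section

namespace Fermat.Agent.S19.Int

open AlgebraicCurve Fermat.Agent.S24.FF Fermat.Agent.S27 Fermat.Agent.S19.Weil

variable {F : Type} [Field F] [Algebra Qb F] [IsFF1 Qb F] {gal : Gal →* SemilinearAut Qb F}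
  {A : ValuationSubring Qb}

/-! ### helper lemmas -/

omit [IsFF1 Qb F] in
private theorem ev_isVal_sum {ι : Type*} (P : Place Qb F) (s : Finset ι) (f : ι → F) (c : ι → Qb)
    (h : ∀ i ∈ s, IsVal P (f i) (c i)) : IsVal P (∑ i ∈ s, f i) (∑ i ∈ s, c i) := by
  classical
  induction s using Finset.induction_on with
  | empty =>
    simp only [Finset.sum_empty]
    have := isVal_algebraMap P (0 : Qb)
    rwa [map_zero] at this
  | insert i s hi ih =>
    rw [Finset.sum_insert hi, Finset.sum_insert hi]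
    exact (h i (Finset.mem_insert_self i s)).add (ih fun j hj => h j (Finset.mem_insert_of_mem hj))

/-- values of `A[y]` -/
private theorem ev_isVal_polyRing {y r : F} (hr : r ∈ S18.polyRing A.toSubring y) (P : Place Qb F)
    (hy : 0 ≤ P.ord y) (hyA : ev P y ∈ A) : ∃ c ∈ A, IsVal P r c := by
  obtain ⟨p, hp, rfl⟩ := (S18.mem_polyRing_iff _ _ _).1 hr
  refine ⟨p.eval (ev P y), ?_, (isVal_ev hy).aeval p⟩
  rw [Polynomial.eval_eq_sum_range]
  exact A.toSubring.sum_mem fun i _ => A.mul_mem _ _ (hp i) (A.pow_mem hyA i)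

private theorem ev_mem_of_isIntegral {β : Qb} (h : IsIntegral A β) : β ∈ A := by
  obtain ⟨z, hz⟩ := (IsIntegrallyClosed.isIntegral_iff (R := A) (K := Qb)).1 h
  rw [← hz]
  exact z.2

/-- EV1 : `O_P` is integrally closed and contains `A[y]`; `ev P : O_P → ℚ̄` maps `A[y]` into `A`, and `A`
is integrally closed in `ℚ̄`. -/
theorem ev_mem_of_mem_chart {y b : F} (hb : b ∈ S18.chart A.toSubring y) (P : Place Qb F)
    (hy : 0 ≤ P.ord y) (hyA : ev P y ∈ A) : 0 ≤ P.ord b ∧ ev P b ∈ A := by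
  rw [S18.mem_chart_iff_isIntegral] at hb
  -- `b ∈ O_P`
  have hbP : 0 ≤ P.ord b := by
    have h1 : IsIntegral P.toValuationSubring b := by
      refine S18.isIntegral_of_forall_exists_algebraMap (fun r => ?_) hb
      obtain ⟨c, -, hc⟩ := ev_isVal_polyRing r.2 P hy hyA
      exact ⟨⟨r.1, mem_of_ord_nonneg P hc.ord_nonneg⟩, rfl⟩
    obtain ⟨z, hz⟩ :=
      (IsIntegrallyClosed.isIntegral_iff (R := P.toValuationSubring) (K := F)).1 h1
    rw [← hz]
    exact ord_nonneg_of_mem P z.2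
  refine ⟨hbP, ?_⟩
  obtain ⟨q, hq, hqb⟩ := hb
  choose c hcA hc using fun r : S18.polyRing A.toSubring y => ev_isVal_polyRing r.2 P hy hyA
  rw [Polynomial.eval₂_eq_sum_range] at hqb
  have h1 : IsVal P (∑ i ∈ Finset.range (q.natDegree + 1),
      algebraMap (S18.polyRing A.toSubring y) F (q.coeff i) * b ^ i)
      (∑ i ∈ Finset.range (q.natDegree + 1), c (q.coeff i) * ev P b ^ i) :=
    ev_isVal_sum P _ _ _ fun i _ => (hc (q.coeff i)).mul ((isVal_ev hbP).pow i)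
  rw [hqb] at h1
  have h0 : IsVal P (0 : F) (0 : Qb) := by
    have := isVal_algebraMap P (0 : Qb)
    rwa [map_zero] at this
  have h2 := h1.unique h0
  -- the leading coefficient
  have hlead : c (q.coeff q.natDegree) = 1 := by
    have h3 := hc (q.coeff q.natDegree)
    rw [show q.coeff q.natDegree = 1 from hq] at h3 ⊢
    have h4 : IsVal P (1 : F) (1 : Qb) := by
      have := isVal_algebraMap P (1 : Qb)
      rwa [map_one] at this
    exact h3.unique h4
  -- a monic polynomial over `A`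
  apply ev_mem_of_isIntegral
  refine ⟨Polynomial.X ^ q.natDegree + ∑ i ∈ Finset.range q.natDegree,
    Polynomial.C (⟨c (q.coeff i), hcA _⟩ : A) * Polynomial.X ^ i, ?_, ?_⟩
  · apply Polynomial.monic_X_pow_add
    refine lt_of_le_of_lt (Polynomial.degree_sum_le _ _) ?_
    rw [Finset.sup_lt_iff (by exact WithBot.bot_lt_coe _)]
    intro i hi
    refine lt_of_le_of_lt (Polynomial.degree_C_mul_X_pow_le _ _) ?_
    exact_mod_cast Finset.mem_range.1 hi
  · rw [Finset.sum_range_succ, hlead, one_mul] at h2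
    rw [Polynomial.eval₂_add, Polynomial.eval₂_pow, Polynomial.eval₂_X, Polynomial.eval₂_finsetSum,
      add_comm, ← h2]
    congr 1
    refine Finset.sum_congr rfl fun i _ => ?_
    rw [Polynomial.eval₂_mul, Polynomial.eval₂_C, Polynomial.eval₂_pow, Polynomial.eval₂_X]
    rfl

omit [IsFF1 Qb F] in
private theorem ev_algebraMap_mem_chart {y : F} {c : Qb} (hc : c ∈ A) :
    algebraMap Qb F c ∈ S18.chart A.toSubring y := by
  apply S18.polyRing_le_chart
  rw [S18.mem_polyRing_iff]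
  refine ⟨Polynomial.C c, fun i => ?_, by simp⟩
  rw [Polynomial.coeff_C]
  split_ifs
  · exact hc
  · exact A.zero_mem

omit [IsFF1 Qb F] in
theorem BA.mem_chart {y b : F} (hb : b ∈ BA gal A y) : b ∈ S18.chart A.toSubring y := by
  obtain ⟨m, c, β, hc, -, hβ, rfl⟩ := hb
  exact Subring.sum_mem _ fun k _ => Subring.mul_mem _ (ev_algebraMap_mem_chart (hc k)) (hβ k)

omit [IsFF1 Qb F] in
/-- the action on an element of `BA`, in coordinates -/
private theorem ev_smul_sum (hgal : ∀ (σ : Gal) (a : Qb), SemilinearAut.baseAut (gal σ) a = σ a)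
    {m : ℕ} (c : Fin m → Qb) (β : Fin m → F) (hβ : ∀ k (σ : Gal), gal σ • β k = β k) (σ : Gal) :
    gal σ • (∑ k, algebraMap Qb F (c k) * β k) = ∑ k, algebraMap Qb F (σ (c k)) * β k := by
  rw [Finset.smul_sum]
  refine Finset.sum_congr rfl fun k _ => ?_
  rw [smul_mul', SemilinearAut.smul_algebraMap, hgal, hβ]

omit [IsFF1 Qb F] in
/-- EV2 : `gal σ • b = ∑ σ(c_k) β_k`. -/
theorem BA.smul_mem (hgal : ∀ (σ : Gal) (a : Qb), SemilinearAut.baseAut (gal σ) a = σ a) {y b : F}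
    (hb : b ∈ BA gal A y) {σ : Gal} (hσ : σ ∈ A.inertiaSubgroupIn ℚ) : gal σ • b ∈ BA gal A y := by
  obtain ⟨m, c, β, hc, hfix, hβ, rfl⟩ := hb
  exact ⟨m, fun k => σ (c k), β, fun k => inertia_apply_mem hσ (hc k), hfix, hβ,
    ev_smul_sum hgal c β hfix σ⟩

/-- the value of a combination -/
private theorem ev_ev_sum {y : F} {m : ℕ} (c : Fin m → Qb) (β : Fin m → F)
    (hβ : ∀ k, β k ∈ S18.chart A.toSubring y) (P : Place Qb F) (hy : 0 ≤ P.ord y)
    (hyA : ev P y ∈ A) :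
    ev P (∑ k, algebraMap Qb F (c k) * β k) = ∑ k, c k * ev P (β k) :=
  ev_eq_of_isVal (ev_isVal_sum P _ _ _ fun k _ =>
    (isVal_algebraMap P (c k)).mul (isVal_ev (ev_mem_of_mem_chart (hβ k) P hy hyA).1))

/-- EV3 : `(σ b)(P) = ∑ β_k(P) σ(c_k)`. -/
theorem BA.isSI_ev_smul (hgal : ∀ (σ : Gal) (a : Qb), SemilinearAut.baseAut (gal σ) a = σ a)
    {y b : F} (hb : b ∈ BA gal A y) (P : Place Qb F) (hy : 0 ≤ P.ord y) (hyA : ev P y ∈ A) :
    IsSI A (fun σ => ev P (gal σ • b)) := by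
  obtain ⟨m, c, β, hc, hfix, hβ, rfl⟩ := hb
  refine ⟨m, fun k => ev P (β k), c, fun k => (ev_mem_of_mem_chart (hβ k) P hy hyA).2, hc,
    fun σ _ => ?_⟩
  beta_reduce
  rw [ev_smul_sum hgal c β hfix σ, ev_ev_sum _ β hβ P hy hyA]
  exact Finset.sum_congr rfl fun k _ => mul_comm _ _

/-- EV4 : `b(σ P) = σ ((σ⁻¹ b)(P)) = ∑ c_k σ(β_k(P))`. -/
theorem BA.isSI_ev_smul_place (hgal : ∀ (σ : Gal) (a : Qb), SemilinearAut.baseAut (gal σ) a = σ a)
    {y b : F} (hb : b ∈ BA gal A y) (P : Place Qb F) (hy : 0 ≤ P.ord y) (hyA : ev P y ∈ A) :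
    IsSI A (fun σ => ev (gal σ • P) b) := by
  obtain ⟨m, c, β, hc, hfix, hβ, rfl⟩ := hb
  refine ⟨m, c, fun k => ev P (β k), hc, fun k => (ev_mem_of_mem_chart (hβ k) P hy hyA).2,
    fun σ _ => ?_⟩
  beta_reduce
  have h1 : (∑ k, algebraMap Qb F (c k) * β k) =
      gal σ • (∑ k, algebraMap Qb F (σ⁻¹ (c k)) * β k) := by
    rw [ev_smul_sum hgal _ β hfix σ]
    refine Finset.sum_congr rfl fun k _ => ?_
    rw [← AlgEquiv.mul_apply, mul_inv_cancel, AlgEquiv.one_apply]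
  rw [h1, ev_smul, hgal, ev_ev_sum _ β hβ P hy hyA, map_sum]
  refine Finset.sum_congr rfl fun k _ => ?_
  rw [map_mul, ← AlgEquiv.mul_apply, mul_inv_cancel, AlgEquiv.one_apply]

/-! ### units -/

private theorem ev_ord_eq_zero_of_ev_ne_zero {P : Place Qb F} {a : F} (h : 0 ≤ P.ord a)
    (h0 : ev P a ≠ 0) : a ≠ 0 ∧ P.ord a = 0 := by
  rw [Ne, ev_eq_zero_iff h, not_or, not_lt] at h0
  exact ⟨h0.1, le_antisymm h0.2 h⟩

/-- quotient of two functions which are units at `P`. -/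
private theorem ev_quot {P : Place Qb F} {f a b : F} (hfb : f * b = a) (ha : 0 ≤ P.ord a)
    (hb : 0 ≤ P.ord b) (ha0 : ev P a ≠ 0) (hb0 : ev P b ≠ 0) :
    f ≠ 0 ∧ P.ord f = 0 ∧ ev P f = ev P a / ev P b := by
  obtain ⟨ha1, ha2⟩ := ev_ord_eq_zero_of_ev_ne_zero ha ha0
  obtain ⟨hb1, hb2⟩ := ev_ord_eq_zero_of_ev_ne_zero hb hb0
  have hf0 : f ≠ 0 := by
    rintro rfl
    rw [zero_mul] at hfb
    exact ha1 hfb.symm
  have hford : P.ord f = 0 := by
    have := P.ord_mul hf0 hb1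
    rw [hfb, ha2, hb2, add_zero] at this
    exact this.symm
  refine ⟨hf0, hford, ?_⟩
  rw [eq_div_iff hb0, ← ev_mul hford.ge hb, hfb]

/-- only the quotient formula, when the numerator may vanish -/
private theorem ev_quot' {P : Place Qb F} {f a b : F} (hfb : f * b = a) (ha : 0 ≤ P.ord a)
    (hb : 0 ≤ P.ord b) (hb0 : ev P b ≠ 0) : ev P f = ev P a / ev P b := by
  obtain ⟨hb1, hb2⟩ := ev_ord_eq_zero_of_ev_ne_zero hb hb0
  have hford : 0 ≤ P.ord f := by
    rcases eq_or_ne f 0 with rfl | hf0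
    · simp
    · have := P.ord_mul hf0 hb1
      rw [hfb, hb2, add_zero] at this
      rw [← this]
      exact ha
  rw [eq_div_iff hb0, ← ev_mul hford hb, hfb]

private theorem ev_isAU_div {z w : Qb} (hz : IsAU A z) (hw : IsAU A w) : IsAU A (z / w) := by
  refine ⟨?_, ?_, div_ne_zero hz.2.2 hw.2.2⟩
  · rw [div_eq_mul_inv]
    exact A.mul_mem _ _ hz.1 hw.2.1
  · rw [inv_div, div_eq_mul_inv]
    exact A.mul_mem _ _ hw.1 hz.2.1

private theorem AUnitAt.ord_eq_zero' {y f : F} {P : Place Qb F} (h : AUnitAt gal A y f P) :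
    f ≠ 0 ∧ P.ord f = 0 ∧ IsAU A (ev P f) := by
  obtain ⟨hy, hyA, a, b, ha, hb, hfb, hua, hub⟩ := h
  obtain ⟨h1, h2, h3⟩ := ev_quot hfb (ev_mem_of_mem_chart (BA.mem_chart ha) P hy hyA).1
    (ev_mem_of_mem_chart (BA.mem_chart hb) P hy hyA).1 hua.2.2 hub.2.2
  exact ⟨h1, h2, h3 ▸ ev_isAU_div hua hub⟩

/-- EV5 -/
theorem AUnit.ord_eq_zero {x f : F} {P : Place Qb F} (h : AUnit gal A x f P) :
    f ≠ 0 ∧ P.ord f = 0 ∧ IsAU A (ev P f) := by
  rcases h with h | h
  · exact h.ord_eq_zero'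
  · exact h.ord_eq_zero'

private theorem AUnitAt.isSI_smul' (hgal : ∀ (σ : Gal) (a : Qb), SemilinearAut.baseAut (gal σ) a = σ a)
    {y f : F} {P : Place Qb F} (h : AUnitAt gal A y f P) :
    IsSI A (fun σ => ev P (gal σ • f)) := by
  obtain ⟨hy, hyA, a, b, ha, hb, hfb, hua, hub⟩ := h
  have hSa := BA.isSI_ev_smul hgal ha P hy hyA
  have hSb := BA.isSI_ev_smul hgal hb P hy hyA
  have hb1 : ev P (gal 1 • b) = ev P b := by rw [map_one, one_smul]
  have hinv : (ev P (gal 1 • b))⁻¹ ∈ A := by rw [hb1]; exact hub.2.1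
  have hne : ev P (gal 1 • b) ≠ 0 := by rw [hb1]; exact hub.2.2
  refine (hSa.div hSb hinv hne).congr fun σ hσ => ?_
  have h1 : gal σ • f * gal σ • b = gal σ • a := by rw [← smul_mul', hfb]
  exact ev_quot' h1 (ev_mem_of_mem_chart (BA.mem_chart (BA.smul_mem hgal ha hσ)) P hy hyA).1
    (ev_mem_of_mem_chart (BA.mem_chart (BA.smul_mem hgal hb hσ)) P hy hyA).1
    (hSb.inv_mem hinv hne hσ).1

/-- EV6 : `σ ↦ (σ f)(P)`. -/
theorem AUnit.isSI_smul (hgal : ∀ (σ : Gal) (a : Qb), SemilinearAut.baseAut (gal σ) a = σ a)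
    {x f : F} {P : Place Qb F} (h : AUnit gal A x f P) :
    IsSI A (fun σ => ev P (gal σ • f)) := by
  rcases h with h | h
  · exact h.isSI_smul' hgal
  · exact h.isSI_smul' hgal

private theorem AUnitAt.isSI_smul_place'
    (hgal : ∀ (σ : Gal) (a : Qb), SemilinearAut.baseAut (gal σ) a = σ a)
    {y f : F} (hyfix : ∀ σ : Gal, gal σ • y = y) {P : Place Qb F} (h : AUnitAt gal A y f P) :
    IsSI A (fun σ => ev (gal σ • P) f) ∧
      ∀ σ ∈ A.inertiaSubgroupIn ℚ, (gal σ • P).ord f = 0 := by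
  obtain ⟨hy, hyA, a, b, ha, hb, hfb, hua, hub⟩ := h
  have hSa := BA.isSI_ev_smul_place hgal ha P hy hyA
  have hSb := BA.isSI_ev_smul_place hgal hb P hy hyA
  have ha1 : ev (gal 1 • P) a = ev P a := by rw [map_one, one_smul]
  have hb1 : ev (gal 1 • P) b = ev P b := by rw [map_one, one_smul]
  have hinva : (ev (gal 1 • P) a)⁻¹ ∈ A := by rw [ha1]; exact hua.2.1
  have hnea : ev (gal 1 • P) a ≠ 0 := by rw [ha1]; exact hua.2.2
  have hinvb : (ev (gal 1 • P) b)⁻¹ ∈ A := by rw [hb1]; exact hub.2.1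
  have hneb : ev (gal 1 • P) b ≠ 0 := by rw [hb1]; exact hub.2.2
  have key : ∀ σ ∈ A.inertiaSubgroupIn ℚ, f ≠ 0 ∧ (gal σ • P).ord f = 0 ∧
      ev (gal σ • P) f = ev (gal σ • P) a / ev (gal σ • P) b := by
    intro σ hσ
    have hy' : 0 ≤ (gal σ • P).ord y := by
      have := SemilinearAut.ord_smul (gal σ) P y
      rw [hyfix] at this
      rw [this]
      exact hy
    have hyA' : ev (gal σ • P) y ∈ A := by
      have := ev_smul (gal σ) P y
      rw [hyfix, hgal] at this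
      rw [this]
      exact inertia_apply_mem hσ hyA
    exact ev_quot hfb (ev_mem_of_mem_chart (BA.mem_chart ha) _ hy' hyA').1
      (ev_mem_of_mem_chart (BA.mem_chart hb) _ hy' hyA').1 (hSa.inv_mem hinva hnea hσ).1
      (hSb.inv_mem hinvb hneb hσ).1
  exact ⟨(hSa.div hSb hinvb hneb).congr fun σ hσ => (key σ hσ).2.2, fun σ hσ => (key σ hσ).2.1⟩

/-- EV7 : `σ ↦ f(σ P)`; moreover `f` is a unit at every `σ P`, `σ ∈ I_A`. -/
theorem AUnit.isSI_smul_place (hgal : ∀ (σ : Gal) (a : Qb), SemilinearAut.baseAut (gal σ) a = σ a)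
    {x f : F} (hx : ∀ σ : Gal, gal σ • x = x) {P : Place Qb F} (h : AUnit gal A x f P) :
    IsSI A (fun σ => ev (gal σ • P) f) ∧
      ∀ σ ∈ A.inertiaSubgroupIn ℚ, (gal σ • P).ord f = 0 := by
  rcases h with h | h
  · exact h.isSI_smul_place' hgal hx
  · exact h.isSI_smul_place' hgal (fun σ => by rw [smul_inv'', hx])

end Fermat.Agent.S19.Int
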