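/-
S19 Part C, block ON (base change of the integral charts).  Architect helper32.

Claim: an element `b` of `F = ℚ̄(X₀(M))` integral over `A[y]` (`y = x^{±1}`) is an `A`-linear combination of
elements `β_k ∈ ℚ(X₀(M))` integral over `ℤ_(ℓ)[y]`.

CORRECTED PLAN (08:10 UTC; the former step (1) "b has integral q-coefficients" was not justified).
(RAT)   `b = ∑ u_i tb β_i`, `u_i ∈ ℚ̄`, `β_i` rational and integral over `ℚ[y0]`            (Int/ON/Rat.lean)
(DEN)   a primitive integral rational series `Q ∈ F_ℚ` such that all `f_i := β_i Q` have bounded denominators  (Int/ON/Den.lean)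
(GAUSS) `b` reduces (Gauss norm `≤ 1`), hence so does `R := b Q = ∑ u_i f_i`; if `t ∈ 𝔪_A` and `t R` is integral then `t R ≡ 0`  (Int/ON/Gauss.lean)
(ORTH)  linear algebra: `R = ∑ c_k g_k`, `c_k ∈ A`, `g_k = ∑ m_{k i} f_i` integral                (Int/ON/Orth.lean, Int/ON/Lin.lean)
(BACK)  `β'_k := ∑ m_{k i} β_i` is integral over `ℚ[y0]` and `β'_k Q = g_k` is integral, so `tb β'_k` is integral over `A[y]`, Galois-fixed (Int/ON/Back.lean)
(END)   `b Q = ∑ c_k (tb β'_k) Q`, cancel `Q`.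
-/
import Fermat.Agent.S19.Int.ON.Base
import Fermat.Agent.S19.Int.ON.Orth
import Fermat.Agent.S19.Int.ON.Rat
import Fermat.Agent.S19.Int.ON.Gauss
import Fermat.Agent.S19.Int.ON.Den
import Fermat.Agent.S19.Int.ON.Back
import Fermat.Agent.S18.Descent.DVRUnif

set_option autoImplicit false
set_option linter.unusedSectionVars false

noncomputable section

namespace Fermat.Agent.S19.Int

open AlgebraicCurve ModularCurve Fermat.Agent.S24 Fermat.Agent.S18 Fermat.Agent.S28.Export

variable {M ℓ : ℕ} [NeZero M] [Fact ℓ.Prime]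

/-- coefficients of `∑ u_i tb z_i` -/
theorem coeff_sum_const_mul_tb {r : ℕ} (u : Fin r → Kbar) (z : Fin r → FK Q0 M) (n : ℤ) :
    ((∑ i, algebraMap Kbar (FN M) (u i) * tb M (z i) : FN M) : LaurentSeries Kbar).coeff n =
      ∑ i, u i * algebraMap Q0 Kbar ((z i : LaurentSeries Q0).coeff n) := by
  have h1 : ((∑ i, algebraMap Kbar (FN M) (u i) * tb M (z i) : FN M) : LaurentSeries Kbar) =
      ∑ i, algebraMap Kbar (LaurentSeries Kbar) (u i) *
        coeffMap (algebraMap Q0 Kbar) (z i : LaurentSeries Q0) := by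
    rw [← IntermediateField.coe_val, map_sum]
    rfl
  rw [h1, HahnSeries.coeff_sum]
  refine Finset.sum_congr rfl fun i _ => ?_
  rw [DescentQ.coeff_algebraMap_mul, coeffMap_coeff]

theorem algebraMap_mem_chart_top {K₀ F : Type*} [Field K₀] [Field F] [Algebra K₀ F] (x : F) (c : K₀) :
    algebraMap K₀ F c ∈ chart (⊤ : Subring K₀) x := by
  have h : algebraMap K₀ F c ∈ polyRing (⊤ : Subring K₀) x :=
    descChart_mem_polyRing_top.2 ⟨Polynomial.C c, by simp⟩
  exact isIntegral_algebraMap (R := polyRing (⊤ : Subring K₀) x) (A := F) (x := ⟨_, h⟩)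

theorem chart_subset_BA_aux (hℓ : ¬ ℓ ∣ M) (A : ValuationSubring Kbar) (hA : A.LiesOverPrime ℓ)
    {ϖ₀ : Q0} {Ow : ValuationSubring (FK Q0 M)} {E : IntermediateField Q0 (FK Q0 M)}
    {y0 : FK Q0 M} (h₀ : IsUnif (A0 A) ϖ₀) (hG : IsGauss (A0 A) ϖ₀ (FK Q0 M) Ow)
    (hV : IsVert (A0 A) ϖ₀ Ow E) (hy : IsCoord (A0 A) ϖ₀ Ow E y0)
    (hyred : ∃ g, Red A ((tb M y0 : FN M) : LaurentSeries Kbar) g)
    {b : FN M} (hb : b ∈ chart A.toSubring (tb M y0)) : b ∈ BA (galM M) A (tb M y0) := by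
  classical
  have hdvr : IsDiscreteValuationRing (A.comap (algebraMap Q0 Kbar)) :=
    Descent.isDiscreteValuationRing_restrict Q0 (Fact.out : ℓ.Prime).ne_zero hA
  have hbtop : b ∈ chart (⊤ : Subring Kbar) (tb M y0) := chart_mono le_top _ hb
  obtain ⟨r, u, β, hβ, hbsum⟩ := exists_rational_decomp hbtop
  obtain ⟨Q, hQ, hQ0, hden⟩ := exists_common_den h₀ M β
  set QF : FK Q0 M := ⟨coeffMap (A0 A).subtype Q, hQ⟩ with hQF
  have hQF0 : QF ≠ 0 := by
    intro h
    apply hQ0
    have h1 : coeffMap (A0 A).subtype Q = 0 := congrArg Subtype.val h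
    have h2 : Q = 0 := iota_injective (A0 A) (by rw [h1, map_zero])
    rw [h2, map_zero]
  let f : Fin r → ℤ → Q0 := fun i n => ((β i * QF : FK Q0 M) : LaurentSeries Q0).coeff n
  -- `R = b Q`
  have hR : b * tb M QF = ∑ i, algebraMap Kbar (FN M) (u i) * tb M (β i * QF) := by
    rw [hbsum, Finset.sum_mul]
    refine Finset.sum_congr rfl fun i _ => ?_
    rw [map_mul, mul_assoc]
  have hRc : ∀ n, ((b * tb M QF : FN M) : LaurentSeries Kbar).coeff n =
      ∑ i, u i * algebraMap Q0 Kbar (f i n) := by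
    intro n
    rw [hR, coeff_sum_const_mul_tb]
  -- `R` reduces
  obtain ⟨g, hg⟩ := exists_red_of_mem_chart hℓ A hA hyred hb
  have hQred : ∃ g', Red A ((tb M QF : FN M) : LaurentSeries Kbar) g' := by
    have : ((tb M QF : FN M) : LaurentSeries Kbar) =
        iota A (coeffMap (Descent.restrictHom A Q0) Q) := by
      ext n
      rfl
    rw [this]
    exact ⟨_, red_iota _⟩
  obtain ⟨g', hg'⟩ := hQred
  have hRred : Red A ((b * tb M QF : FN M) : LaurentSeries Kbar) (g * g') := hg.mul hg'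
  obtain ⟨s, m, c, hc, hm, hsum⟩ := orth A f u hden (by
    intro t ht h n
    rw [← hRc]
    refine coeff_mem_nonunits_of_red hRred ht (fun n => ?_) n
    rw [hRc]
    exact h n)
  -- the new elements
  let β' : Fin s → FK Q0 M := fun k => ∑ i, algebraMap Q0 (FK Q0 M) (m k i) * β i
  have hβ' : ∀ k, β' k ∈ chart (⊤ : Subring Q0) y0 := by
    intro k
    refine Subring.sum_mem _ fun i _ => Subring.mul_mem _ ?_ (hβ i)
    exact algebraMap_mem_chart_top _ _
  have hβ'c : ∀ k n, ((β' k * QF : FK Q0 M) : LaurentSeries Q0).coeff n = ∑ i, m k i * f i n := by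
    intro k n
    have h1 : ((β' k * QF : FK Q0 M) : LaurentSeries Q0) =
        ∑ i, algebraMap Q0 (LaurentSeries Q0) (m k i) * ((β i * QF : FK Q0 M) : LaurentSeries Q0) := by
      have h2 : β' k * QF = ∑ i, algebraMap Q0 (FK Q0 M) (m k i) * (β i * QF) := by
        rw [Finset.sum_mul]
        exact Finset.sum_congr rfl fun i _ => mul_assoc _ _ _
      rw [h2, ← IntermediateField.coe_val, map_sum]
      rfl
    rw [h1, HahnSeries.coeff_sum]
    exact Finset.sum_congr rfl fun i _ => DescentQ.coeff_algebraMap_mul _ _ _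
  have hback := fun k => back A hG hV hy (hβ' k) Q hQ hQ0 (fun n => by
    have := hm k n
    rw [← hβ'c] at this
    exact this)
  have hfin : b = ∑ k, algebraMap Kbar (FN M) (c k) * tb M (β' k) := by
    have htbQ : tb M QF ≠ 0 := (map_ne_zero _).2 hQF0
    apply mul_right_cancel₀ htbQ
    apply Subtype.ext
    ext n
    rw [hRc, hsum, Finset.sum_mul]
    have : ∑ k, algebraMap Kbar (FN M) (c k) * tb M (β' k) * tb M QF =
        ∑ k, algebraMap Kbar (FN M) (c k) * tb M (β' k * QF) := by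
      refine Finset.sum_congr rfl fun k _ => ?_
      rw [map_mul, mul_assoc]
    rw [this, coeff_sum_const_mul_tb]
    refine Finset.sum_congr rfl fun k _ => ?_
    rw [hβ'c]
  exact ⟨s, c, fun k => tb M (β' k), hc, fun k σ => (hback k).2 σ, fun k => (hback k).1, hfin⟩

theorem tb_xK (D : BaseData M ℓ) : tb M (D.xK Q0) = D.xK Kbar := Export.baseChangeMap_xK D _

theorem red_xK (D : BaseData M ℓ) (A : ValuationSubring Kbar) :
    Red A ((D.xK Kbar : FN M) : LaurentSeries Kbar)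
      (rho A (coeffMap (Int.castRingHom A) D.X)) := by
  have : ((D.xK Kbar : FN M) : LaurentSeries Kbar) = iota A (coeffMap (Int.castRingHom A) D.X) := by
    ext n
    simp [BaseData.xK, coeffEmb, coeffMap_coeff]
  rw [this]
  exact red_iota _

theorem rho_X_ne_zero (D : BaseData M ℓ) (A : ValuationSubring Kbar) :
    rho A (coeffMap (Int.castRingHom A) D.X) ≠ 0 := by
  intro h
  have h1 := congrArg (fun z => rho A (coeffMap (Int.castRingHom A) z)) D.mul_inv
  simp only [map_mul, map_one, h, zero_mul] at h1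
  exact zero_ne_one h1

theorem chart_subset_BA (hℓ : ¬ ℓ ∣ M) (D : BaseData M ℓ) (A : ValuationSubring Qb)
    (hA : A.LiesOverPrime ℓ) {b : FN M} (hb : b ∈ chart A.toSubring (D.xK Kbar)) :
    b ∈ BA (galM M) A (D.xK Kbar) := by
  obtain ⟨ϖ₀, h₀, hℓA⟩ := exists_isUnif_comap A hA Q0
  obtain ⟨Ow, hG, hV, hx, -, -⟩ := Export.exists_good_model h₀ hℓ hℓA D
  rw [← tb_xK D] at hb ⊢
  refine chart_subset_BA_aux hℓ A hA h₀ hG hV hx ?_ hb
  rw [tb_xK D]
  exact ⟨_, red_xK D A⟩

theorem chart_inv_subset_BA (hℓ : ¬ ℓ ∣ M) (D : BaseData M ℓ) (A : ValuationSubring Qb)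
    (hA : A.LiesOverPrime ℓ) {b : FN M} (hb : b ∈ chart A.toSubring (D.xK Kbar)⁻¹) :
    b ∈ BA (galM M) A (D.xK Kbar)⁻¹ := by
  obtain ⟨ϖ₀, h₀, hℓA⟩ := exists_isUnif_comap A hA Q0
  obtain ⟨Ow, hG, hV, -, hx', -⟩ := Export.exists_good_model h₀ hℓ hℓA D
  rw [← tb_xK D, ← map_inv₀] at hb ⊢
  refine chart_subset_BA_aux hℓ A hA h₀ hG hV hx' ?_ hb
  rw [map_inv₀, tb_xK D]
  exact ⟨_, (red_xK D A).inv (rho_X_ne_zero D A)⟩

end Fermat.Agent.S19.Int
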