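/-
S19 Part C, block REP: integrality of the Weil pairing from a pair of good representatives.
(architect helper32; proof helper44).
-/
import Fermat.Agent.S19.Int.Eval
import Fermat.Agent.S19.Weil.Pairing

set_option autoImplicit false

noncomputable section

namespace Fermat.Agent.S19.Int

open AlgebraicCurve Fermat.Agent.S24.FF Fermat.Agent.S27 Fermat.Agent.S19.Weil

variable {F : Type} [Field F] [Algebra Qb F] [IsFF1 Qb F] [NonConst Qb F]
  {gal : Gal →* SemilinearAut Qb F} {A : ValuationSubring Qb}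

omit [IsFF1 Qb F] [NonConst Qb F] in
/-- the value of a function on a translated divisor -/
theorem OfReps.evDiv_smul_right (g : SemilinearAut Qb F) (f : F) (D : Divisor Qb F) :
    evDiv f (g • D) = ∏ P ∈ D.support, ev (g • P) f ^ D P := by
  unfold evDiv
  rw [SemilinearAut.divisor_smul_def, Finsupp.prod_mapDomain_index_inj (MulAction.injective g)]
  rfl

omit [IsFF1 Qb F] [NonConst Qb F] in
/-- the inverse of the value of a function on a divisor -/
theorem OfReps.evDiv_inv_eq (f : F) (D : Divisor Qb F) :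
    (evDiv f D)⁻¹ = ∏ P ∈ D.support, ev P f ^ (-D P) := by
  unfold evDiv Finsupp.prod
  rw [← Finset.prod_inv_distrib]
  exact Finset.prod_congr rfl fun P _ => by rw [zpow_neg]

/-- For `σ ∈ I_A`: `TorsRep.smul (gal σ) b` represents `gal σ • w`, its support is disjoint from that of
`a` (EV7 + `a.div`), and by `weil_eq`
`weil n v (σ w) = ∏_{P'} a.f(σ P')^{b.D P'} / ∏_P (σ b.f)(P)^{a.D P}`;
every factor is `IsSI` with unit value at `σ = 1` (EV5-EV7); conclude by `IsSI.zpow/prod/div/congr`. -/
theorem isSI_weil_of_reps (hgal : ∀ (σ : Gal) (a : Qb), SemilinearAut.baseAut (gal σ) a = σ a)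
    {x : F} (hx : ∀ σ : Gal, gal σ • x = x) {n : ℕ} (hn : 0 < n) {v w : Pic0 Qb F}
    (a : TorsRep n v) (b : TorsRep n w)
    (h1 : ∀ P : Place Qb F, b.D P ≠ 0 → AUnit gal A x a.f P)
    (h2 : ∀ P : Place Qb F, a.D P ≠ 0 → AUnit gal A x b.f P) :
    IsSI A (fun σ => weil n v (gal σ • w)) := by
  -- the two products
  have e1 : IsSI A (fun σ => ∏ P ∈ b.D.support, ev (gal σ • P) a.f ^ b.D P) := by
    refine IsSI.prod _ (fun P σ => ev (gal σ • P) a.f ^ b.D P) fun P hP => ?_
    have hP' := h1 P (Finsupp.mem_support_iff.1 hP)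
    have hu := hP'.ord_eq_zero.2.2
    refine (hP'.isSI_smul_place hgal hx).1.zpow ?_ ?_ _
    · rw [map_one, one_smul]
      exact hu.2.1
    · rw [map_one, one_smul]
      exact hu.2.2
  have e2 : IsSI A (fun σ => ∏ P ∈ a.D.support, ev P (gal σ • b.f) ^ (-a.D P)) := by
    refine IsSI.prod _ (fun P σ => ev P (gal σ • b.f) ^ (-a.D P)) fun P hP => ?_
    have hP' := h2 P (Finsupp.mem_support_iff.1 hP)
    have hu := hP'.ord_eq_zero.2.2
    refine (hP'.isSI_smul hgal).zpow ?_ ?_ _
    · rw [map_one, one_smul]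
      exact hu.2.1
    · rw [map_one, one_smul]
      exact hu.2.2
  refine (e1.mul e2).congr fun σ hσ => ?_
  have hD : (b.smul (gal σ)).D = gal σ • b.D := rfl
  have hf : (b.smul (gal σ)).f = gal σ • b.f := rfl
  have hdisj : Disjoint a.D.support (b.smul (gal σ)).D.support := by
    rw [disjoint_comm, Pairing.disjoint_iff]
    intro P hP
    rw [hD, SemilinearAut.divisor_smul_apply] at hP
    have h3 := ((h1 _ hP).isSI_smul_place hgal hx).2 σ hσ
    rw [smul_inv_smul] at h3
    have h4 := a.div.2 P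
    rw [h3, Finsupp.smul_apply, smul_eq_mul] at h4
    rcases mul_eq_zero.1 h4 with h5 | h5
    · exact absurd (Int.natCast_eq_zero.1 h5) hn.ne'
    · exact h5
  rw [weil_eq hn a (b.smul (gal σ)) hdisj, weilRep, hD, hf, div_eq_mul_inv,
    OfReps.evDiv_smul_right, OfReps.evDiv_inv_eq]

end Fermat.Agent.S19.Int
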