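/-
S19 Part C, block SLR: the semilocal root lemma (integral moving lemma).  Mathlib + S18 (KL-A) only.
(architect helper32, proofs helper263): the statement of `slr` is a frozen interface; the abstract
commutative algebra is in `Int/SLR/Semilocal.lean`.

Proof.  `I := (ϖ, g) B`, `S := {b ∈ B | b invertible mod I}` (a submonoid), `R := S⁻¹ B ⊆ F`.
(1) `ϖ` lies in the Jacobson radical of `R` (`1 + ϖ c / t = (t + ϖ c) / t`, `t + ϖ c ∈ S`).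
(2) `R / ϖ R` is the localisation of the Dedekind domain `B / ϖ` at the image of `S`; its maximal ideals
    contain the image of `g ≠ 0`, so there are finitely many: it is a PID (and a domain).
(3) `R` noetherian domain, `ϖ ∈ Jac`, `R / ϖ` PID domain ⟹ `R` is a UFD: the proofs of
    `S18.Abs.prime_principal_of_quotient_pir`, `ufd_of_quotient_pid` work verbatim with
    "`IsLocalRing`, `π ∈ maximalIdeal`" replaced by "`π ∈ (⊥ : Ideal R).jacobson`".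
(4) `S18.Abs.PUnitUpToPow R n h`: for the prime `ϖ` use `hB.loc` (`h` is a Gauss unit); for a prime `p`
    not associated to `ϖ` use `RootData`.
(5) `S18.Abs.exists_root_unit`: `s ^ n * h ∈ Rˣ`, i.e. `= a / b` with `a, b ∈ S`.  Elements of `S` are Gauss
    units if `I ≠ ⊤`; if `I = ⊤` take `s = 1` and `hB.loc`.
-/
import Fermat.Agent.S19.Int.Defs
import Fermat.Agent.S18.Abs.Bridge1
import Fermat.Agent.S19.Int.SLR.Semilocal

set_option autoImplicit false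

noncomputable section

namespace Fermat.Agent.S19.Int

open Fermat.Agent.S18

variable {F : Type*} [Field F]

/-- The submonoid of the elements of `B` which are invertible modulo `(ϖ, g)`. -/
def unitModSubmonoid (B : Subring F) (ϖ g : F) (hϖ : ϖ ∈ B) (hg : g ∈ B) : Submonoid B where
  carrier := {b | UnitMod B ϖ g (b : F)}
  one_mem' := ⟨B.one_mem, 1, B.one_mem, 0, B.zero_mem, 0, B.zero_mem, by
    show (1 : F) * 1 = 1 + ϖ * 0 + g * 0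
    ring⟩
  mul_mem' := by
    rintro a b ⟨-, a', ha', r₁, hr₁, r₁', hr₁', e₁⟩ ⟨-, b', hb', r₂, hr₂, r₂', hr₂', e₂⟩
    have hy : ϖ * r₂ + g * r₂' ∈ B := B.add_mem (B.mul_mem hϖ hr₂) (B.mul_mem hg hr₂')
    refine ⟨(a * b).2, a' * b', B.mul_mem ha' hb', r₁ + r₂ + r₁ * (ϖ * r₂ + g * r₂'),
      B.add_mem (B.add_mem hr₁ hr₂) (B.mul_mem hr₁ hy), r₁' + r₂' + r₁' * (ϖ * r₂ + g * r₂'),
      B.add_mem (B.add_mem hr₁' hr₂') (B.mul_mem hr₁' hy), ?_⟩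
    show (a : F) * (b : F) * (a' * b') = _
    have : (a : F) * (b : F) * (a' * b') = ((a : F) * a') * ((b : F) * b') := by ring
    rw [this, e₁, e₂]
    ring

theorem mem_unitModSubmonoid {B : Subring F} {ϖ g : F} (hϖ : ϖ ∈ B) (hg : g ∈ B) (b : B) :
    b ∈ unitModSubmonoid B ϖ g hϖ hg ↔ UnitMod B ϖ g (b : F) := Iff.rfl

/-- **SLR.** -/
theorem slr {Ow : ValuationSubring F} {ϖ : F} (hϖ : IsUnif Ow ϖ) {B : Subring F}
    (hB : IsChart Ow ϖ B) {n : ℕ} (hn : 0 < n) {g : F} (hg : g ∈ B) (hg' : g / ϖ ∉ Ow)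
    {h : F} (hh : h ∈ Ow) (hh' : h⁻¹ ∈ Ow) (hh0 : h ≠ 0) (hr : RootData B ϖ n h) :
    ∃ s a b : F, s ≠ 0 ∧ a ≠ 0 ∧ b ≠ 0 ∧ UnitMod B ϖ g a ∧ UnitMod B ϖ g b ∧ a⁻¹ ∈ Ow ∧ b⁻¹ ∈ Ow ∧
      s ^ n * h * b = a := by
  by_cases hI : ∃ r ∈ B, ∃ r' ∈ B, 1 + ϖ * r + g * r' = 0
  · -- the unit ideal
    obtain ⟨r, hr, r', hr', e⟩ := hI
    have hall : ∀ a ∈ B, UnitMod B ϖ g a := fun a ha =>
      ⟨ha, 0, B.zero_mem, r, hr, r', hr', by rw [mul_zero, e]⟩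
    obtain ⟨b, hb, hb0, hbinv, hbh⟩ := hB.loc h hh
    refine ⟨1, b * h, b, one_ne_zero, mul_ne_zero hb0 hh0, hb0, hall _ hbh, hall _ hb, ?_, hbinv,
      by ring⟩
    rw [mul_inv]
    exact Ow.mul_mem _ _ hbinv hh'
  · have hϖ0 := hϖ.ne_zero
    have hπB := hB.unif_mem
    set π : B := ⟨ϖ, hπB⟩ with hπ
    set gB : B := ⟨g, hg⟩ with hgB
    have hπ0 : π ≠ 0 := fun h0 => hϖ0 (congrArg Subtype.val h0)
    have : IsNoetherianRing B := hB.noeth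
    have : IsFractionRing B F := hB.isFractionRing hϖ
    have : IsDedekindDomain (B ⧸ Ideal.span {π}) := hB.ded π rfl
    have hQEP : ∀ b : B, algebraMap B F b / algebraMap B F π ∈ Ow → π ∣ b := by
      intro b hb
      refine ⟨⟨(b : F) / ϖ, hB.qep b b.2 hb⟩, ?_⟩
      apply Subtype.val_injective
      show (b : F) = ϖ * ((b : F) / ϖ)
      field_simp
    have hBO : ∀ b : B, algebraMap B F b ∈ Ow := fun b => hB.le b b.2
    have hOmax : ∀ y ∈ Ow, y⁻¹ ∉ Ow → y / algebraMap B F π ∈ Ow := fun y hy hy' =>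
      hϖ.div_mem hy hy'
    set S := unitModSubmonoid B ϖ g hπB hg with hS
    have hSπ : ∀ s ∈ S, ∀ c, s + π * c ∈ S := by
      rintro s ⟨-, s', hs', r, hr, r', hr', e⟩ c
      refine ⟨(s + π * c).2, s', hs', r + c * s', B.add_mem hr (B.mul_mem c.2 hs'), r', hr', ?_⟩
      show ((s : F) + ϖ * (c : F)) * s' = _
      rw [add_mul, e]
      ring
    have hSg : ∀ s ∈ S, ∀ c, s + gB * c ∈ S := by
      rintro s ⟨-, s', hs', r, hr, r', hr', e⟩ c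
      refine ⟨(s + gB * c).2, s', hs', r, hr, r' + c * s', B.add_mem hr' (B.mul_mem c.2 hs'), ?_⟩
      show ((s : F) + g * (c : F)) * s' = _
      rw [add_mul, e]
      ring
    have hS3 : ∀ s ∈ S, ¬ π ∣ s := by
      rintro s ⟨-, s', hs', r, hr, r', hr', e⟩ ⟨c, rfl⟩
      apply hI
      refine ⟨r - c * s', B.sub_mem hr (B.mul_mem c.2 hs'), r', hr', ?_⟩
      have e' : ϖ * (c : F) * s' = 1 + ϖ * r + g * r' := e
      linear_combination -e'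
    have hS4 : ∀ a c, a * c ∈ S → a ∈ S := by
      rintro a c ⟨-, s', hs', r, hr, r', hr', e⟩
      refine ⟨a.2, c * s', B.mul_mem c.2 hs', r, hr, r', hr', ?_⟩
      have e' : (a : F) * (c : F) * s' = 1 + ϖ * r + g * r' := e
      rw [← e']
      ring
    obtain ⟨t, a, b, ht, ha, hb, e⟩ := exists_semilocal_root Ow π hπ0 hQEP hBO hOmax
      hϖ.inv_notMem n h hh0 hh hh' (hr.divHyp hπB hϖ0) gB hg' S hSπ hSg hS3 hS4
    have hne : ∀ s ∈ S, (s : F) ≠ 0 := by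
      intro s hs h0
      apply hS3 s hs
      have : s = 0 := Subtype.val_injective h0
      rw [this]
      exact dvd_zero π
    have hinv : ∀ s ∈ S, (s : F)⁻¹ ∈ Ow := by
      intro s hs
      by_contra hcon
      exact hS3 s hs (hQEP s (hOmax _ (hBO s) hcon))
    exact ⟨t, a, b, ht, hne a ha, hne b hb, ha, hb, hinv a ha, hinv b hb, e⟩

/-- **PAIR.**  Two applications of `slr` and one of `IsChart.loc`. -/
theorem exists_pair {Ow : ValuationSubring F} {ϖ : F} (hϖ : IsUnif Ow ϖ) {B₁ B₂ : Subring F}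
    (h₁ : IsChart Ow ϖ B₁) (h₂ : IsChart Ow ϖ B₂) {x : F} (hx' : x⁻¹ ∈ B₂) (hx'' : x⁻¹ / ϖ ∉ Ow)
    {n : ℕ} (hn : 0 < n) {fv fw : F} (hv0 : fv ≠ 0) (hv : fv ∈ Ow) (hv' : fv⁻¹ ∈ Ow)
    (hw0 : fw ≠ 0) (hw : fw ∈ Ow) (hw' : fw⁻¹ ∈ Ow)
    (rv : RootData B₁ ϖ n fv) (rw : RootData B₂ ϖ n fw) :
    ∃ sv sw a b a₂ b₂ av bv : F, sv ≠ 0 ∧ sw ≠ 0 ∧ a ≠ 0 ∧ b ≠ 0 ∧ a₂ ≠ 0 ∧ b₂ ≠ 0 ∧ av ≠ 0 ∧ bv ≠ 0 ∧
      UnitMod B₂ ϖ x⁻¹ a₂ ∧ UnitMod B₂ ϖ x⁻¹ b₂ ∧ sw ^ n * fw * b₂ = a₂ ∧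
      a ∈ B₁ ∧ b ∈ B₁ ∧ sw ^ n * fw * b = a ∧
      UnitMod B₁ ϖ (a * b) av ∧ UnitMod B₁ ϖ (a * b) bv ∧ sv ^ n * fv * bv = av := by
  obtain ⟨sw, a₂, b₂, hsw, ha₂, hb₂, ua₂, ub₂, ia₂, ib₂, e₂⟩ :=
    slr hϖ h₂ hn hx' hx'' hw hw' hw0 rw
  have hu0 : sw ^ n * fw ≠ 0 := mul_ne_zero (pow_ne_zero _ hsw) hw0
  have hu : sw ^ n * fw = a₂ * b₂⁻¹ := by
    rw [← e₂]
    field_simp
  have huO : sw ^ n * fw ∈ Ow := by
    rw [hu]
    exact Ow.mul_mem _ _ (h₂.le _ ua₂.1) ib₂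
  have huO' : (sw ^ n * fw)⁻¹ ∈ Ow := by
    rw [hu, mul_inv, inv_inv]
    exact Ow.mul_mem _ _ ia₂ (h₂.le _ ub₂.1)
  obtain ⟨b, hb, hb0, hbinv, hbu⟩ := h₁.loc _ huO
  have ha0 : b * (sw ^ n * fw) ≠ 0 := mul_ne_zero hb0 hu0
  have hab : b * (sw ^ n * fw) * b ∈ B₁ := B₁.mul_mem hbu hb
  have hab' : b * (sw ^ n * fw) * b / ϖ ∉ Ow := by
    intro hcon
    apply hϖ.not_both (mul_ne_zero ha0 hb0) hcon
    rw [mul_inv, mul_inv]
    exact Ow.mul_mem _ _ (Ow.mul_mem _ _ hbinv huO') hbinv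
  obtain ⟨sv, av, bv, hsv, hav, hbv, uav, ubv, -, -, ev⟩ :=
    slr hϖ h₁ hn hab hab' hv hv' hv0 rv
  exact ⟨sv, sw, b * (sw ^ n * fw), b, a₂, b₂, av, bv, hsv, hsw, ha0, hb0, ha₂, hb₂, hav, hbv,
    ua₂, ub₂, e₂, hbu, hb, by ring, uav, ubv, ev⟩

end Fermat.Agent.S19.Int
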