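/-
S19 Part C, block PB: the pair lemma over `ℚ̄` (descent to a number field, good model, `exists_pair`, back).

Proof.  (R1) As in `S18.Descent.KL_of_KL₀'` (S18/Descent/Main.lean): `exists_definedOver_finset` applied to
`fv, fw` and uniformisers at the places of their supports gives a number field `K₀` and `fv₀, fw₀ ∈ FK K₀ M`
with `baseChangeMap fv₀ = fv`, ... and `dvd_ord_of_forall_dvd_ord` gives `n ∣ ord_w` for all places `w` of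
`FK K₀ M`.  (R2) `A₀ := A.comap (algebraMap K₀ Kbar)`, `exists_isUnif_comap`, `S18.Export.exists_good_model`;
multiply `fv₀, fw₀` by powers of `ϖ₀` to make them Gauss units (`IsUnif.exists_zpow`);
`rootData_of_places` (S18/Places/Root.lean) + `rootData_chart` (S18/Chart/Basic.lean) as in
S18/WIP/KlOfBase.lean; `x⁻¹ / ϖ ∉ Ow` because `x⁻¹` is a Gauss unit (`IsCoord`); `exists_pair` (Int/SLR.lean).
(R3) apply the ring hom `baseChangeMap`: it maps `chart A₀ y` into `chart A y` (integrality is preserved),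
`ϖ₀` to a constant in `A.nonunits`, `D.xK K₀` to `D.xK Kbar` (`S18.Export.baseChangeMap_xK`).
-/
import Fermat.Agent.S19.Int.SLR
import Fermat.Agent.S18.Export.IsChartBase
import Fermat.Agent.S18.Descent.Main
import Fermat.Agent.S18.Descent.DVRUnif
import Fermat.Agent.S18.Places.Root
import Fermat.Agent.S18.Chart.Basic

set_option autoImplicit false

noncomputable section

namespace Fermat.Agent.S19.Int

open AlgebraicCurve ModularCurve Fermat.Agent.S24 Fermat.Agent.S18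

section PBAbs

open Polynomial

variable {K₀ K F₀ F : Type*} [Field K₀] [Field K] [Field F₀] [Field F] [Algebra K₀ F₀]
  [Algebra K F] [Algebra K₀ K] (ι : F₀ →+* F)
  (hι : ∀ c : K₀, ι (algebraMap K₀ F₀ c) = algebraMap K F (algebraMap K₀ K c))

include hι in
/-- a map of function fields over a map of constant fields maps charts into charts. -/
theorem pb_map_mem_chart {A₀ : Subring K₀} {A : Subring K}
    (hA : ∀ a ∈ A₀, algebraMap K₀ K a ∈ A) {x z : F₀} (hz : z ∈ chart A₀ x) :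
    ι z ∈ chart A (ι x) := by
  rw [descChart_mem_chart] at hz ⊢
  have hmap : ∀ y ∈ polyRing A₀ x, ι y ∈ polyRing A (ι x) := by
    intro y hy
    obtain ⟨p, hp, rfl⟩ := (mem_polyRing_iff _ _ _).1 hy
    refine (mem_polyRing_iff _ _ _).2 ⟨p.map (algebraMap K₀ K), fun i => ?_,
      (descChart_map_aeval ι hι x p).symm⟩
    rw [coeff_map]
    exact hA _ (hp i)
  let φ : polyRing A₀ x →+* polyRing A (ι x) :=
    (ι.comp (polyRing A₀ x).subtype).codRestrict _ (fun y => hmap y y.2)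
  exact IsIntegral.map_of_comp_eq φ ι (by ext; rfl) hz

omit [Algebra K₀ F₀] [Algebra K F] [Algebra K₀ K] in
theorem pb_unitMod_map {B : Subring F₀} {B' : Subring F} (hB : ∀ b ∈ B, ι b ∈ B') {ϖ g a : F₀}
    (h : UnitMod B ϖ g a) : UnitMod B' (ι ϖ) (ι g) (ι a) := by
  obtain ⟨ha, a', ha', r, hr, r', hr', e⟩ := h
  refine ⟨hB _ ha, ι a', hB _ ha', ι r, hB _ hr, ι r', hB _ hr', ?_⟩
  rw [← map_mul, e]
  simp

end PBAbs

section PBAbs2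

open IntermediateField

variable {K₀ F : Type*} [Field K₀] [Field F] [Algebra K₀ F]

theorem pb_exists_const_unit {Ow : ValuationSubring F} {ϖ₀ : K₀}
    (hU : IsUnif Ow (algebraMap K₀ F ϖ₀)) {f : F} (hf : f ≠ 0) :
    ∃ c : K₀, c ≠ 0 ∧ algebraMap K₀ F c * f ∈ Ow ∧ (algebraMap K₀ F c * f)⁻¹ ∈ Ow := by
  have hϖ0 : ϖ₀ ≠ 0 := by
    intro h
    apply hU.ne_zero
    rw [h, map_zero]
  obtain ⟨k, h1, h2⟩ := hU.exists_zpow f hf
  have e : algebraMap K₀ F (ϖ₀ ^ (-k)) * f = f / algebraMap K₀ F ϖ₀ ^ k := by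
    rw [map_zpow₀, zpow_neg, div_eq_mul_inv, mul_comm]
  refine ⟨ϖ₀ ^ (-k), zpow_ne_zero _ hϖ0, ?_, ?_⟩
  · rwa [e]
  · rwa [e]

/-- (R2), abstract form. -/
theorem pb_pair_abs [CharZero K₀] {A₀ : ValuationSubring K₀} {ϖ₀ : K₀} {Ow : ValuationSubring F}
    {E : IntermediateField K₀ F} {x : F} (h₀ : IsUnif A₀ ϖ₀) (hV : IsVert A₀ ϖ₀ Ow E)
    (hx : IsCoord A₀ ϖ₀ Ow E x) (hx' : IsCoord A₀ ϖ₀ Ow E x⁻¹)
    (hC₁ : IsChart Ow (algebraMap K₀ F ϖ₀) (chart A₀.toSubring x))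
    (hC₂ : IsChart Ow (algebraMap K₀ F ϖ₀) (chart A₀.toSubring x⁻¹))
    (htr : Transcendental K₀ x) [FiniteDimensional K₀⟮x⟯ F] [FiniteDimensional K₀⟮x⁻¹⟯ F]
    {n : ℕ} (hn : 0 < n) {fv fw : F} (hv0 : fv ≠ 0) (hw0 : fw ≠ 0)
    (hv : ∀ w : Place K₀ F, (n : ℤ) ∣ w.ord fv) (hw : ∀ w : Place K₀ F, (n : ℤ) ∣ w.ord fw) :
    ∃ (cv cw : K₀) (sv sw a b a₂ b₂ av bv : F), cv ≠ 0 ∧ cw ≠ 0 ∧
      sv ≠ 0 ∧ sw ≠ 0 ∧ a ≠ 0 ∧ b ≠ 0 ∧ a₂ ≠ 0 ∧ b₂ ≠ 0 ∧ av ≠ 0 ∧ bv ≠ 0 ∧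
      UnitMod (chart A₀.toSubring x⁻¹) (algebraMap K₀ F ϖ₀) x⁻¹ a₂ ∧
      UnitMod (chart A₀.toSubring x⁻¹) (algebraMap K₀ F ϖ₀) x⁻¹ b₂ ∧
      sw ^ n * (algebraMap K₀ F cw * fw) * b₂ = a₂ ∧
      a ∈ chart A₀.toSubring x ∧ b ∈ chart A₀.toSubring x ∧
      sw ^ n * (algebraMap K₀ F cw * fw) * b = a ∧
      UnitMod (chart A₀.toSubring x) (algebraMap K₀ F ϖ₀) (a * b) av ∧
      UnitMod (chart A₀.toSubring x) (algebraMap K₀ F ϖ₀) (a * b) bv ∧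
      sv ^ n * (algebraMap K₀ F cv * fv) * bv = av := by
  have htr' : Transcendental K₀ x⁻¹ := FF.transcendental_inv htr
  obtain ⟨cv, hcv, hgv, hgv'⟩ := pb_exists_const_unit hV.unif hv0
  obtain ⟨cw, hcw, hgw, hgw'⟩ := pb_exists_const_unit hV.unif hw0
  have hc0 : ∀ c : K₀, c ≠ 0 → algebraMap K₀ F c ≠ 0 := fun c hc => by
    rwa [Ne, map_eq_zero]
  have hord : ∀ (c : K₀) (f : F), c ≠ 0 → f ≠ 0 → ∀ w : Place K₀ F,
      w.ord (algebraMap K₀ F c * f) = w.ord f := by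
    intro c f hc hf w
    rw [w.ord_mul (hc0 c hc) hf, FF.ord_algebraMap, zero_add]
  have hgv0 := mul_ne_zero (hc0 cv hcv) hv0
  have hgw0 := mul_ne_zero (hc0 cw hcw) hw0
  have rv := rootData_chart hV hx hgv hgv' (rootData_of_places htr hn.ne' hgv0
    (fun w _ => by rw [hord cv fv hcv hv0]; exact hv w))
  have rw' := rootData_chart hV hx' hgw hgw' (rootData_of_places htr' hn.ne' hgw0
    (fun w _ => by rw [hord cw fw hcw hw0]; exact hw w))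
  have hXc : ∀ i, (Polynomial.X : Polynomial K₀).coeff i ∈ A₀ := by
    intro i
    rw [Polynomial.coeff_X]
    split_ifs
    · exact one_mem _
    · exact zero_mem _
  have hxmem : x⁻¹ ∈ chart A₀.toSubring x⁻¹ := by
    have := ChartBasic.aeval_mem_chart (x := x⁻¹) (Polynomial.X : Polynomial K₀) hXc
    rwa [Polynomial.aeval_X] at this
  have hxn : x⁻¹ / algebraMap K₀ F ϖ₀ ∉ Ow := by
    intro h
    have h1 := hx'.transc Polynomial.X hXc (by rwa [Polynomial.aeval_X]) 1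
    rw [Polynomial.coeff_X_one, one_div] at h1
    exact h₀.inv_notMem h1
  obtain ⟨sv, sw, a, b, a₂, b₂, av, bv, h1, h2, h3, h4, h5, h6, h7, h8, h9, h10, h11, h12, h13,
    h14, h15, h16, h17⟩ := exists_pair hV.unif hC₁ hC₂ hxmem hxn hn hgv0 hgv hgv' hgw0 hgw hgw'
      rv rw'
  exact ⟨cv, cw, sv, sw, a, b, a₂, b₂, av, bv, hcv, hcw, h1, h2, h3, h4, h5, h6, h7, h8,
    h9, h10, h11, h12, h13, h14, h15, h16, h17⟩

end PBAbs2

section PBAbs3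

variable {K₀ K F₀ F : Type*} [Field K₀] [Field K] [Field F₀] [Field F] [Algebra K₀ F₀]
  [Algebra K F] [Algebra K₀ K]

theorem pb_mem_nonunits {A : ValuationSubring K} {ϖ₀ : K₀}
    (h₀ : IsUnif (A.comap (algebraMap K₀ K)) ϖ₀) : algebraMap K₀ K ϖ₀ ∈ A.nonunits := by
  rw [ValuationSubring.mem_nonunits_iff]
  have h1 : algebraMap K₀ K ϖ₀ ∈ A := h₀.mem
  have h2 : (algebraMap K₀ K ϖ₀)⁻¹ ∉ A := fun h => h₀.inv_notMem (by
    show algebraMap K₀ K ϖ₀⁻¹ ∈ A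
    rwa [map_inv₀])
  refine lt_of_le_of_ne ((A.valuation_le_one_iff _).2 h1) fun h => h2 ?_
  rw [← A.valuation_le_one_iff, map_inv₀, h, inv_one]

/-- (R3), abstract form. -/
theorem pb_pair_transport (ι : F₀ →+* F)
    (hι : ∀ c : K₀, ι (algebraMap K₀ F₀ c) = algebraMap K F (algebraMap K₀ K c))
    {A₀ : Subring K₀} {A : Subring K} (hA : ∀ a ∈ A₀, algebraMap K₀ K a ∈ A)
    {ϖ₀ : K₀} {x : F₀} {n : ℕ} {fv fw : F₀}
    (h : ∃ (cv cw : K₀) (sv sw a b a₂ b₂ av bv : F₀), cv ≠ 0 ∧ cw ≠ 0 ∧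
      sv ≠ 0 ∧ sw ≠ 0 ∧ a ≠ 0 ∧ b ≠ 0 ∧ a₂ ≠ 0 ∧ b₂ ≠ 0 ∧ av ≠ 0 ∧ bv ≠ 0 ∧
      UnitMod (chart A₀ x⁻¹) (algebraMap K₀ F₀ ϖ₀) x⁻¹ a₂ ∧
      UnitMod (chart A₀ x⁻¹) (algebraMap K₀ F₀ ϖ₀) x⁻¹ b₂ ∧
      sw ^ n * (algebraMap K₀ F₀ cw * fw) * b₂ = a₂ ∧
      a ∈ chart A₀ x ∧ b ∈ chart A₀ x ∧
      sw ^ n * (algebraMap K₀ F₀ cw * fw) * b = a ∧
      UnitMod (chart A₀ x) (algebraMap K₀ F₀ ϖ₀) (a * b) av ∧
      UnitMod (chart A₀ x) (algebraMap K₀ F₀ ϖ₀) (a * b) bv ∧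
      sv ^ n * (algebraMap K₀ F₀ cv * fv) * bv = av) :
    ∃ (cv cw : K) (sv sw a b a₂ b₂ av bv : F), cv ≠ 0 ∧ cw ≠ 0 ∧
      sv ≠ 0 ∧ sw ≠ 0 ∧ a ≠ 0 ∧ b ≠ 0 ∧ a₂ ≠ 0 ∧ b₂ ≠ 0 ∧ av ≠ 0 ∧ bv ≠ 0 ∧
      UnitMod (chart A (ι x)⁻¹) (algebraMap K F (algebraMap K₀ K ϖ₀)) (ι x)⁻¹ a₂ ∧
      UnitMod (chart A (ι x)⁻¹) (algebraMap K F (algebraMap K₀ K ϖ₀)) (ι x)⁻¹ b₂ ∧
      sw ^ n * (algebraMap K F cw * ι fw) * b₂ = a₂ ∧
      a ∈ chart A (ι x) ∧ b ∈ chart A (ι x) ∧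
      sw ^ n * (algebraMap K F cw * ι fw) * b = a ∧
      UnitMod (chart A (ι x)) (algebraMap K F (algebraMap K₀ K ϖ₀)) (a * b) av ∧
      UnitMod (chart A (ι x)) (algebraMap K F (algebraMap K₀ K ϖ₀)) (a * b) bv ∧
      sv ^ n * (algebraMap K F cv * ι fv) * bv = av := by
  obtain ⟨cv, cw, sv, sw, a, b, a₂, b₂, av, bv, hcv, hcw, h1, h2, h3, h4, h5, h6, h7, h8,
    h9, h10, h11, h12, h13, h14, h15, h16, h17⟩ := h
  have hne : ∀ y : F₀, y ≠ 0 → ι y ≠ 0 := fun y hy => (map_ne_zero ι).2 hy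
  have hne' : ∀ c : K₀, c ≠ 0 → algebraMap K₀ K c ≠ 0 := fun c hc =>
    (map_ne_zero (algebraMap K₀ K)).2 hc
  have hch : ∀ y z : F₀, z ∈ chart A₀ y → ι z ∈ chart A (ι y) := fun y z hz =>
    pb_map_mem_chart ι hι hA hz
  have hch' : ∀ z : F₀, z ∈ chart A₀ x⁻¹ → ι z ∈ chart A (ι x)⁻¹ := fun z hz => by
    rw [← map_inv₀]
    exact hch _ z hz
  refine ⟨algebraMap K₀ K cv, algebraMap K₀ K cw, ι sv, ι sw, ι a, ι b, ι a₂, ι b₂, ι av, ι bv,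
    hne' _ hcv, hne' _ hcw, hne _ h1, hne _ h2, hne _ h3, hne _ h4, hne _ h5, hne _ h6, hne _ h7,
    hne _ h8, ?_, ?_, ?_, hch _ _ h12, hch _ _ h13, ?_, ?_, ?_, ?_⟩
  · have := pb_unitMod_map ι hch' h9
    rwa [hι, map_inv₀] at this
  · have := pb_unitMod_map ι hch' h10
    rwa [hι, map_inv₀] at this
  · rw [← h11, map_mul, map_mul, map_mul, map_pow, hι]
  · rw [← h14, map_mul, map_mul, map_mul, map_pow, hι]
  · have := pb_unitMod_map ι (hch x) h15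
    rwa [hι, map_mul] at this
  · have := pb_unitMod_map ι (hch x) h16
    rwa [hι, map_mul] at this
  · rw [← h17, map_mul, map_mul, map_mul, map_pow, hι]

end PBAbs3

variable {M ℓ : ℕ} [NeZero M] [Fact ℓ.Prime]

open Fermat.Agent.S24.FF Fermat.Agent.S18.Descent in
omit [Fact ℓ.Prime] in
/-- (R1): descent to a number field. -/
theorem pb_descent {n : ℕ} {fv fw : FN M}
    (hv : ∀ P : Place Kbar (FN M), (n : ℤ) ∣ P.ord fv)
    (hw : ∀ P : Place Kbar (FN M), (n : ℤ) ∣ P.ord fw) :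
    ∃ (K₀ : IntermediateField ℚ Kbar) (_ : FiniteDimensional ℚ K₀) (fv₀ fw₀ : FK K₀ M),
      baseChangeMap (modularFunctionFieldFull M) (algebraMap K₀ Kbar) fv₀ = fv ∧
      baseChangeMap (modularFunctionFieldFull M) (algebraMap K₀ Kbar) fw₀ = fw ∧
      (∀ w : Place K₀ (FK K₀ M), (n : ℤ) ∣ w.ord fv₀) ∧
      (∀ w : Place K₀ (FK K₀ M), (n : ℤ) ∣ w.ord fw₀) := by
  classical
  have : Algebra.IsAlgebraic ℚ Kbar := AlgebraicClosure.isAlgebraic ℚ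
  have hfinv : {P : Place Kbar (FN M) | P.ord fv ≠ 0}.Finite := finite_ord_ne_zero fv
  have hfinw : {P : Place Kbar (FN M) | P.ord fw ≠ 0}.Finite := finite_ord_ne_zero fw
  choose t ht using fun P : Place Kbar (FN M) => exists_ord_eq_one P
  let S : Finset (LaurentSeries Kbar) :=
    insert (fv : LaurentSeries Kbar) (insert (fw : LaurentSeries Kbar)
      ((hfinv.toFinset ∪ hfinw.toFinset).image fun P => ((t P : FN M) : LaurentSeries Kbar)))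
  have hS : ∀ x ∈ S, x ∈ laurentBaseChange Kbar (modularFunctionFieldFull M) := by
    intro x hx
    simp only [S, Finset.mem_insert, Finset.mem_image] at hx
    rcases hx with rfl | rfl | ⟨P, -, rfl⟩
    · exact fv.2
    · exact fw.2
    · exact (t P).2
  obtain ⟨K₀, hK₀fin, -, -, hdef⟩ := exists_definedOver_finset S hS ∅ ⊥
  obtain ⟨yv, hyv, hyv'⟩ := hdef (fv : LaurentSeries Kbar) (by simp [S])
  obtain ⟨yw, hyw, hyw'⟩ := hdef (fw : LaurentSeries Kbar) (by simp [S])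
  let φ : K₀ →+* Kbar := algebraMap K₀ Kbar
  let Φ : FK K₀ M →+* FN M := baseChangeMap (modularFunctionFieldFull M) φ
  have hcomp : ∀ a : K₀, Φ (algebraMap K₀ (FK K₀ M) a) = algebraMap Kbar (FN M) (φ a) :=
    fun a => baseChangeMap_algebraMap φ a
  have hint : φ.IsIntegral := by
    intro c
    have h1 : IsIntegral ℚ c := (AlgebraicClosure.isAlgebraic ℚ).isAlgebraic c |>.isIntegral
    exact h1.tower_top (A := K₀)
  have hΦv : Φ ⟨yv, hyv⟩ = fv := Subtype.ext hyv'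
  have hΦw : Φ ⟨yw, hyw⟩ = fw := Subtype.ext hyw'
  have hunif : ∀ P : Place Kbar (FN M), P.ord fv ≠ 0 ∨ P.ord fw ≠ 0 →
      ∃ t₀ : FK K₀ M, P.ord (Φ t₀) = 1 := by
    intro P hP
    obtain ⟨y, hy, hy'⟩ := hdef ((t P : FN M) : LaurentSeries Kbar) (by
      simp only [S, Finset.mem_insert, Finset.mem_image]
      refine Or.inr (Or.inr ⟨P, ?_, rfl⟩)
      rw [Finset.mem_union, hfinv.mem_toFinset, hfinw.mem_toFinset]
      exact hP)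
    refine ⟨⟨y, hy⟩, ?_⟩
    have : Φ ⟨y, hy⟩ = t P := Subtype.ext hy'
    rw [this, ht]
  refine ⟨K₀, hK₀fin, ⟨yv, hyv⟩, ⟨yw, hyw⟩, hΦv, hΦw, ?_, ?_⟩
  · refine dvd_ord_of_forall_dvd_ord φ Φ hcomp hint _ n ?_ ?_
    · intro P hP
      rw [hΦv] at hP
      exact hunif P (Or.inl hP)
    · intro P
      rw [hΦv]
      exact hv P
  · refine dvd_ord_of_forall_dvd_ord φ Φ hcomp hint _ n ?_ ?_
    · intro P hP
      rw [hΦw] at hP
      exact hunif P (Or.inr hP)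
    · intro P
      rw [hΦw]
      exact hw P

open Fermat.Agent.S24.FF Fermat.Agent.S18.Descent IntermediateField in
theorem exists_pair_bar (hℓ : ¬ ℓ ∣ M) (D : BaseData M ℓ) (A : ValuationSubring Qb)
    (hA : A.LiesOverPrime ℓ) {n : ℕ} (hn : 0 < n) {fv fw : FN M} (hv0 : fv ≠ 0) (hw0 : fw ≠ 0)
    (hv : ∀ P : Place Kbar (FN M), (n : ℤ) ∣ P.ord fv)
    (hw : ∀ P : Place Kbar (FN M), (n : ℤ) ∣ P.ord fw) :
    ∃ (cv cw ϖ : Kbar) (sv sw a b a₂ b₂ av bv : FN M), cv ≠ 0 ∧ cw ≠ 0 ∧ ϖ ∈ A.nonunits ∧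
      sv ≠ 0 ∧ sw ≠ 0 ∧ a ≠ 0 ∧ b ≠ 0 ∧ a₂ ≠ 0 ∧ b₂ ≠ 0 ∧ av ≠ 0 ∧ bv ≠ 0 ∧
      UnitMod (chart A.toSubring (D.xK Kbar)⁻¹) (algebraMap Kbar (FN M) ϖ) (D.xK Kbar)⁻¹ a₂ ∧
      UnitMod (chart A.toSubring (D.xK Kbar)⁻¹) (algebraMap Kbar (FN M) ϖ) (D.xK Kbar)⁻¹ b₂ ∧
      sw ^ n * (algebraMap Kbar (FN M) cw * fw) * b₂ = a₂ ∧
      a ∈ chart A.toSubring (D.xK Kbar) ∧ b ∈ chart A.toSubring (D.xK Kbar) ∧
      sw ^ n * (algebraMap Kbar (FN M) cw * fw) * b = a ∧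
      UnitMod (chart A.toSubring (D.xK Kbar)) (algebraMap Kbar (FN M) ϖ) (a * b) av ∧
      UnitMod (chart A.toSubring (D.xK Kbar)) (algebraMap Kbar (FN M) ϖ) (a * b) bv ∧
      sv ^ n * (algebraMap Kbar (FN M) cv * fv) * bv = av := by
  obtain ⟨K₀, hK₀fin, fv₀, fw₀, hΦv, hΦw, hv₀, hw₀⟩ := pb_descent hv hw
  have hv₀0 : fv₀ ≠ 0 := by
    rintro rfl
    exact hv0 (by rw [← hΦv, map_zero])
  have hw₀0 : fw₀ ≠ 0 := by
    rintro rfl
    exact hw0 (by rw [← hΦw, map_zero])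
  obtain ⟨ϖ₀, h₀, hℓA⟩ := exists_isUnif_comap A hA K₀
  obtain ⟨Ow, hG, hV, hx, hx', hC₁, hC₂, -⟩ := Export.exists_good_model h₀ hℓ hℓA D
  have htr : Transcendental K₀ (D.xK K₀) := transcendental_xK D K₀
  have htr' : Transcendental K₀ (D.xK K₀)⁻¹ := FF.transcendental_inv htr
  have : FiniteDimensional K₀⟮D.xK K₀⟯ (FK K₀ M) := IsFF1.finite _ htr
  have : FiniteDimensional K₀⟮(D.xK K₀)⁻¹⟯ (FK K₀ M) := IsFF1.finite _ htr'
  have h2 := pb_pair_abs h₀ hV hx hx' hC₁ hC₂ htr hn hv₀0 hw₀0 hv₀ hw₀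
  have h3 := pb_pair_transport (K := Kbar) (F := FN M)
    (baseChangeMap (modularFunctionFieldFull M) (algebraMap K₀ Kbar))
    (fun c => baseChangeMap_algebraMap (algebraMap K₀ Kbar) c)
    (A := A.toSubring) (fun a ha => ha) h2
  rw [Export.baseChangeMap_xK, hΦv, hΦw] at h3
  obtain ⟨cv, cw, sv, sw, a, b, a₂, b₂, av, bv, hcv, hcw, h⟩ := h3
  exact ⟨cv, cw, algebraMap K₀ Kbar ϖ₀, sv, sw, a, b, a₂, b₂, av, bv, hcv, hcw,
    pb_mem_nonunits h₀, h⟩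

end Fermat.Agent.S19.Int
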