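/-
S19 Part C, block GR: existence of a pair of good representatives, and the main theorem INT.
(architect helper32; proofs helper193, task 1830).
-/
import Fermat.Agent.S19.Int.ON
import Fermat.Agent.S19.Int.PairBar
import Fermat.Agent.S19.Int.OfReps
import Fermat.Agent.S37.HeckeInputs.Main

set_option autoImplicit false

noncomputable section

namespace Fermat.Agent.S19.Int

open AlgebraicCurve ModularCurve Fermat.Agent.S24 Fermat.Agent.S24.FF Fermat.Agent.S27
  Fermat.Agent.S18 Fermat.Agent.S19.Weil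

namespace Reps

/-- `0` is a non-unit. -/
theorem zero_mem_nonunits (A : ValuationSubring Qb) : (0 : Qb) ∈ A.nonunits := by
  rw [ValuationSubring.mem_nonunits_iff, map_zero]
  exact zero_lt_one

theorem mem_of_mem_nonunits {A : ValuationSubring Qb} {z : Qb} (h : z ∈ A.nonunits) : z ∈ A := by
  rw [ValuationSubring.mem_nonunits_iff] at h
  exact (A.valuation_le_one_iff z).1 h.le

/-- a factor of an element of valuation one. -/
theorem isAU_of_mul {A : ValuationSubring Qb} {u u' : Qb} (hu : u ∈ A) (hu' : u' ∈ A)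
    (h : A.valuation (u * u') = 1) : IsAU A u := by
  have h0 : u ≠ 0 := by
    rintro rfl
    rw [zero_mul, map_zero] at h
    exact zero_ne_one h
  refine ⟨hu, ?_, h0⟩
  rw [map_mul] at h
  rw [← A.valuation_le_one_iff, map_inv₀, ← eq_inv_of_mul_eq_one_right h]
  exact (A.valuation_le_one_iff u').2 hu'

theorem isAU_of_notMem_nonunits {A : ValuationSubring Qb} {u u' : Qb} (hu : u ∈ A) (hu' : u' ∈ A)
    (h : u * u' ∉ A.nonunits) : IsAU A u := by
  refine isAU_of_mul hu hu' (le_antisymm ((A.valuation_le_one_iff _).2 (A.mul_mem _ _ hu hu')) ?_)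
  rw [ValuationSubring.mem_nonunits_iff, not_lt] at h
  exact h

end Reps

section Abs

variable {F : Type} [Field F] [Algebra Qb F] [IsFF1 Qb F] {A : ValuationSubring Qb}

/-- GR0 : every place reduces into one of the two charts. -/
theorem chart_dichotomy (x : F) (P : Place Qb F) :
    (0 ≤ P.ord x ∧ ev P x ∈ A) ∨ (0 ≤ P.ord x⁻¹ ∧ ev P x⁻¹ ∈ A.nonunits) := by
  rcases lt_trichotomy (P.ord x) 0 with h | h | h
  · right
    have h1 : 0 < P.ord x⁻¹ := by
      rw [P.ord_inv]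
      omega
    refine ⟨h1.le, ?_⟩
    rw [(ev_eq_zero_iff h1.le).2 (Or.inr h1)]
    exact Reps.zero_mem_nonunits A
  · by_cases hx : x = 0
    · left
      refine ⟨h.ge, ?_⟩
      rw [(ev_eq_zero_iff h.ge).2 (Or.inl hx)]
      exact A.zero_mem
    · by_cases hA : ev P x ∈ A
      · exact Or.inl ⟨h.ge, hA⟩
      · right
        refine ⟨by rw [P.ord_inv, h, neg_zero], ?_⟩
        rw [ev_inv hx h, ValuationSubring.mem_nonunits_iff, map_inv₀]
        rw [← A.valuation_le_one_iff, not_le] at hA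
        exact inv_lt_one_of_one_lt₀ hA
  · left
    refine ⟨h.le, ?_⟩
    rw [(ev_eq_zero_iff h.le).2 (Or.inr h)]
    exact A.zero_mem

/-- GR1 : an element invertible mod `(ϖ, g)` is a unit at every `P` of the chart where `g` reduces to
zero. -/
theorem UnitMod.isAU {y g a : F} {ϖ : Qb} (hϖ : ϖ ∈ A.nonunits)
    (h : UnitMod (S18.chart A.toSubring y) (algebraMap Qb F ϖ) g a)
    (hg : g ∈ S18.chart A.toSubring y) (P : Place Qb F)
    (hy : 0 ≤ P.ord y) (hyA : ev P y ∈ A) (hgP : ev P g ∈ A.nonunits) : IsAU A (ev P a) := by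
  obtain ⟨ha, a', ha', r, hr, r', hr', e⟩ := h
  obtain ⟨oa, va⟩ := ev_mem_of_mem_chart ha P hy hyA
  obtain ⟨oa', va'⟩ := ev_mem_of_mem_chart ha' P hy hyA
  obtain ⟨or, vr⟩ := ev_mem_of_mem_chart hr P hy hyA
  obtain ⟨or', vr'⟩ := ev_mem_of_mem_chart hr' P hy hyA
  obtain ⟨og, -⟩ := ev_mem_of_mem_chart hg P hy hyA
  have i1 : IsVal P (a * a') (ev P a * ev P a') := (isVal_ev oa).mul (isVal_ev oa')
  have i2 : IsVal P (1 + algebraMap Qb F ϖ * r + g * r') (1 + ϖ * ev P r + ev P g * ev P r') := by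
    have h1 : IsVal P (1 : F) (1 : Qb) := by
      have := isVal_algebraMap (F := F) P (1 : Qb)
      rwa [map_one] at this
    exact (h1.add ((isVal_algebraMap P ϖ).mul (isVal_ev or))).add ((isVal_ev og).mul (isVal_ev or'))
  rw [e] at i1
  have e' : ev P a * ev P a' = 1 + ϖ * ev P r + ev P g * ev P r' := i1.unique i2
  refine Reps.isAU_of_mul va va' ?_
  rw [e', add_assoc]
  refine Valuation.map_one_add_of_lt _ ?_
  rw [ValuationSubring.mem_nonunits_iff] at hϖ hgP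
  rw [← A.valuation_le_one_iff] at vr vr'
  refine lt_of_le_of_lt (Valuation.map_add _ _ _) (max_lt ?_ ?_)
  · rw [map_mul]
    exact mul_lt_one_of_lt_of_le hϖ vr
  · rw [map_mul]
    exact mul_lt_one_of_lt_of_le hgP vr'

end Abs

variable {M ℓ : ℕ} [NeZero M] [Fact ℓ.Prime]

instance : NonConst Kbar (FN M) := ⟨⟨jF M, Formal.transcendental_jF M⟩⟩

/-- GR2.  `a0, b0` arbitrary representatives (`exists_torsRep`), `exists_pair_bar` for `a0.f, b0.f`;
`a := (a0.scale cv).move sv _`, `b := (b0.scale cw).move sw _`, so `a.f = av / bv`, `b.f = a/b = a₂/b₂`.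
CHECK 1, `b.D P' ≠ 0`: `P'` is not of type (inf) (else `a₂, b₂` are units at `P'` by GR1 with `g = x⁻¹`, so
`ord b.f = 0`); so it is of type (fin), `a` or `b` vanishes at `P'`, `ev P' (a b) = 0`, GR1 gives `av, bv` units:
`AUnitAt x a.f P'` (with `chart_subset_BA`).
CHECK 2, `a.D P ≠ 0`: type (inf): `AUnitAt x⁻¹ b.f P` by GR1.  Type (fin): `ev P (a b) ∉ A.nonunits` (else `av, bv`
units, `ord a.f = 0`), it lies in `A`, so `ev P a`, `ev P b` are units: `AUnitAt x b.f P`. -/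
theorem exists_good_reps (hℓ : ¬ ℓ ∣ M) (D : BaseData M ℓ) (A : ValuationSubring Qb)
    (hA : A.LiesOverPrime ℓ) {n : ℕ} (hn : 0 < n) {v w : Pic0 Kbar (FN M)}
    (hv : (n : ℤ) • v = 0) (hw : (n : ℤ) • w = 0) :
    ∃ (a : TorsRep n v) (b : TorsRep n w),
      (∀ P : Place Kbar (FN M), b.D P ≠ 0 → AUnit (galM M) A (D.xK Kbar) a.f P) ∧
      (∀ P : Place Kbar (FN M), a.D P ≠ 0 → AUnit (galM M) A (D.xK Kbar) b.f P) := by
  obtain ⟨a0, -⟩ := exists_torsRep hv (∅ : Finset (Place Kbar (FN M)))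
  obtain ⟨b0, -⟩ := exists_torsRep hw (∅ : Finset (Place Kbar (FN M)))
  have hdv : ∀ P : Place Kbar (FN M), (n : ℤ) ∣ P.ord a0.f := fun P => by
    rw [← a0.div.2 P, Finsupp.smul_apply, smul_eq_mul]
    exact dvd_mul_right _ _
  have hdw : ∀ P : Place Kbar (FN M), (n : ℤ) ∣ P.ord b0.f := fun P => by
    rw [← b0.div.2 P, Finsupp.smul_apply, smul_eq_mul]
    exact dvd_mul_right _ _
  obtain ⟨cv, cw, ϖ, sv, sw, a, b, a₂, b₂, av, bv, hcv, hcw, hϖ, hsv, hsw, ha, hb, ha₂, hb₂, hav,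
    hbv, Ua₂, Ub₂, e₂, haC, hbC, e₁, Uav, Ubv, e₃⟩ :=
    exists_pair_bar hℓ D A hA hn a0.div.1 b0.div.1 hdv hdw
  obtain ⟨Gv, hGv⟩ := exists_isDivOf (K := Kbar) sv hsv
  obtain ⟨Gw, hGw⟩ := exists_isDivOf (K := Kbar) sw hsw
  set x : FN M := D.xK Kbar with hx
  let ra : TorsRep n v := (a0.scale cv hcv).move sv Gv hGv
  let rb : TorsRep n w := (b0.scale cw hcw).move sw Gw hGw
  have fa : ra.f = sv ^ n * (algebraMap Kbar (FN M) cv * a0.f) := rfl
  have fb : rb.f = sw ^ n * (algebraMap Kbar (FN M) cw * b0.f) := rfl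
  rw [← fb] at e₂ e₁
  rw [← fa] at e₃
  have hn' : (n : ℤ) ≠ 0 := Int.natCast_ne_zero.2 hn.ne'
  have orda : ∀ P : Place Kbar (FN M), ra.D P ≠ 0 → P.ord ra.f ≠ 0 := fun P hP => by
    rw [← ra.div.2 P, Finsupp.smul_apply, smul_eq_mul]
    exact mul_ne_zero hn' hP
  have ordb : ∀ P : Place Kbar (FN M), rb.D P ≠ 0 → P.ord rb.f ≠ 0 := fun P hP => by
    rw [← rb.div.2 P, Finsupp.smul_apply, smul_eq_mul]
    exact mul_ne_zero hn' hP
  have habC : a * b ∈ chart A.toSubring x := mul_mem haC hbC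
  -- the chart at infinity
  have hinf : ∀ P : Place Kbar (FN M), 0 ≤ P.ord x⁻¹ → ev P x⁻¹ ∈ A.nonunits →
      AUnitAt (galM M) A x⁻¹ rb.f P := fun P hy hyA =>
    ⟨hy, Reps.mem_of_mem_nonunits hyA, a₂, b₂, chart_inv_subset_BA hℓ D A hA Ua₂.1,
      chart_inv_subset_BA hℓ D A hA Ub₂.1, e₂,
      Ua₂.isAU hϖ (self_mem_chart _) P hy (Reps.mem_of_mem_nonunits hyA) hyA,
      Ub₂.isAU hϖ (self_mem_chart _) P hy (Reps.mem_of_mem_nonunits hyA) hyA⟩
  -- the finite chart, where `a b` reduces to zero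
  have hfin : ∀ P : Place Kbar (FN M), 0 ≤ P.ord x → ev P x ∈ A → ev P (a * b) ∈ A.nonunits →
      AUnitAt (galM M) A x ra.f P := fun P hy hyA hab =>
    ⟨hy, hyA, av, bv, chart_subset_BA hℓ D A hA Uav.1, chart_subset_BA hℓ D A hA Ubv.1, e₃,
      Uav.isAU hϖ habC P hy hyA hab, Ubv.isAU hϖ habC P hy hyA hab⟩
  refine ⟨ra, rb, fun P hP => ?_, fun P hP => ?_⟩
  · rcases chart_dichotomy (A := A) x P with ⟨hy, hyA⟩ | ⟨hy, hyA⟩
    · refine Or.inl (hfin P hy hyA ?_)
      obtain ⟨oa, -⟩ := ev_mem_of_mem_chart haC P hy hyA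
      obtain ⟨ob, -⟩ := ev_mem_of_mem_chart hbC P hy hyA
      have h1 := P.ord_mul rb.div.1 hb
      rw [e₁] at h1
      have h2 := ordb P hP
      have h3 : 0 < P.ord (a * b) := by
        rw [P.ord_mul ha hb]
        omega
      rw [(ev_eq_zero_iff h3.le).2 (Or.inr h3)]
      exact Reps.zero_mem_nonunits A
    · exact absurd (AUnit.ord_eq_zero (x := x) (Or.inr (hinf P hy hyA))).2.1 (ordb P hP)
  · rcases chart_dichotomy (A := A) x P with ⟨hy, hyA⟩ | ⟨hy, hyA⟩
    · have hab : ev P (a * b) ∉ A.nonunits := fun hab =>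
        orda P hP (AUnit.ord_eq_zero (x := x) (Or.inl (hfin P hy hyA hab))).2.1
      obtain ⟨oa, va⟩ := ev_mem_of_mem_chart haC P hy hyA
      obtain ⟨ob, vb⟩ := ev_mem_of_mem_chart hbC P hy hyA
      rw [ev_mul oa ob] at hab
      refine Or.inl ⟨hy, hyA, a, b, chart_subset_BA hℓ D A hA haC, chart_subset_BA hℓ D A hA hbC, e₁,
        Reps.isAU_of_notMem_nonunits va vb hab, Reps.isAU_of_notMem_nonunits vb va ?_⟩
      rwa [mul_comm]
    · exact Or.inr (hinf P hy hyA)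

/-- **INT** (local form). -/
theorem isSI_weil (hℓ : ¬ ℓ ∣ M) (D : BaseData M ℓ) (A : ValuationSubring Qb)
    (hA : A.LiesOverPrime ℓ) {n : ℕ} (hn : 0 < n) {v w : JZero M}
    (hv : (n : ℤ) • v = 0) (hw : (n : ℤ) • w = 0) :
    IsSI A (fun σ : Gal => weil n v (σ • w)) := by
  obtain ⟨a, b, h1, h2⟩ := exists_good_reps hℓ D A hA hn hv hw
  have hx : ∀ σ : Gal, galM M σ • D.xK Kbar = D.xK Kbar := fun σ =>
    Subtype.ext (Descent.coeffMap_coeffEmb' _ _)
  exact isSI_weil_of_reps (gal := galM M) (fun σ a => rfl) hx hn a b h1 h2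

end Fermat.Agent.S19.Int
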